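import Mathlib

/-!
# Meromorphic `n`-th roots on the upper half plane (analytic core of "Kummer on ℍ")

Mathlib-only.  Main results (`U := {z : ℂ | 0 < z.im}`):

* `exists_isRootOn_upperHalfPlane`: a meromorphic function on `U` all of whose orders are finite
  and divisible by `n` is the `n`-th power of a meromorphic function (in normal form) on `U`.
* `IsRootOn.eq_const_mul`: two such roots on a preconnected open set differ by an `n`-th root
  of unity.
-/

set_option autoImplicit false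

open Complex Metric Set Filter Topology

noncomputable section

namespace Fermat.Agent.Lib.Analysis.NthRoot

/-- A zero-free holomorphic function on a disc has a holomorphic logarithm. -/
theorem exists_exp_eq_of_ball {g : ℂ → ℂ} {c : ℂ} {r : ℝ}
    (hg : DifferentiableOn ℂ g (ball c r)) (hg0 : ∀ z ∈ ball c r, g z ≠ 0) :
    ∃ L : ℂ → ℂ, DifferentiableOn ℂ L (ball c r) ∧ ∀ z ∈ ball c r, exp (L z) = g z := by
  by_cases hr : 0 < r
  swap
  · refine ⟨0, differentiableOn_const _, fun z hz => ?_⟩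
    rw [ball_eq_empty.mpr (not_lt.mp hr)] at hz
    exact absurd hz (notMem_empty z)
  have hc : c ∈ ball c r := mem_ball_self hr
  have hψ : DifferentiableOn ℂ (fun z => deriv g z / g z) (ball c r) :=
    (hg.deriv isOpen_ball).div hg hg0
  obtain ⟨L, hL⟩ := hψ.isExactOn_ball
  -- `g * exp (-L)` is constant
  have hG : ∀ z ∈ ball c r, HasDerivAt (fun z => g z * exp (-L z)) 0 z := by
    intro z hz
    have h1 : HasDerivAt g (deriv g z) z :=
      (hg.differentiableAt (isOpen_ball.mem_nhds hz)).hasDerivAt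
    have h2 : HasDerivAt (fun z => exp (-L z)) (exp (-L z) * (-(deriv g z / g z))) z :=
      ((hL z hz).neg).cexp
    have h3 : HasDerivAt (fun z => g z * exp (-L z))
        (deriv g z * exp (-L z) + g z * (exp (-L z) * (-(deriv g z / g z)))) z := h1.mul h2
    refine h3.congr_deriv ?_
    have := hg0 z hz
    field_simp
    ring
  have hconst : ∀ z ∈ ball c r, g z * exp (-L z) = g c * exp (-L c) := by
    intro z hz
    exact isOpen_ball.is_const_of_deriv_eq_zero (convex_ball c r).isPreconnected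
      (fun w hw => (hG w hw).differentiableAt.differentiableWithinAt)
      (fun w hw => (hG w hw).deriv) hz hc
  have hne : g c * exp (-L c) ≠ 0 := mul_ne_zero (hg0 c hc) (exp_ne_zero _)
  refine ⟨fun z => L z + Complex.log (g c * exp (-L c)), ?_, fun z hz => ?_⟩
  · have hLd : DifferentiableOn ℂ L (ball c r) :=
      fun z hz => (hL z hz).differentiableAt.differentiableWithinAt
    exact hLd.add_const _
  · rw [exp_add, exp_log hne, ← hconst z hz, mul_comm, mul_assoc, ← exp_add]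
    simp

/-- `h` is a meromorphic `n`-th root of `f` on `B`, in normal form. -/
def IsRootOn (n : ℕ) (f h : ℂ → ℂ) (B : Set ℂ) : Prop :=
  MeromorphicNFOn h B ∧ ∀ z ∈ B, h ^ n =ᶠ[𝓝[≠] z] f

theorem IsRootOn.mono {n : ℕ} {f h : ℂ → ℂ} {B B' : Set ℂ} (hh : IsRootOn n f h B)
    (hB : B' ⊆ B) : IsRootOn n f h B' :=
  ⟨fun _ hz => hh.1 (hB hz), fun z hz => hh.2 z (hB hz)⟩

/-- Local existence of `n`-th roots on a disc whose closure lies in the domain. -/
theorem exists_isRootOn_ball {n : ℕ} (hn : n ≠ 0) {f : ℂ → ℂ} {U : Set ℂ}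
    (hf : MeromorphicOn f U) (hfin : ∀ z ∈ U, meromorphicOrderAt f z ≠ ⊤)
    (hdiv : ∀ z ∈ U, (n : ℤ) ∣ (meromorphicOrderAt f z).untop₀)
    {c : ℂ} {r : ℝ} (hK : closedBall c r ⊆ U) :
    ∃ h, IsRootOn n f h (ball c r) := by
  have hfK : MeromorphicOn f (closedBall c r) := hf.mono_set hK
  set D := MeromorphicOn.divisor f (closedBall c r) with hD
  have hDfin : D.support.Finite := D.finiteSupport (isCompact_closedBall c r)
  obtain ⟨g, hg, hg0, hfg⟩ := hfK.extract_zeros_poles (fun u => hfin u (hK u.2)) hDfin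
  have hgB : DifferentiableOn ℂ g (ball c r) := fun z hz =>
    (hg z (ball_subset_closedBall hz)).differentiableAt.differentiableWithinAt
  obtain ⟨L, hL, hexp⟩ :=
    exists_exp_eq_of_ball hgB (fun z hz => hg0 ⟨z, ball_subset_closedBall hz⟩)
  -- the exponents of the root
  let d : ℂ → ℤ := fun u => D u / n
  have hdn : ∀ u, d u * n = D u := by
    intro u
    apply Int.ediv_mul_cancel
    by_cases hu : u ∈ closedBall c r
    · rw [hD, MeromorphicOn.divisor_apply hfK hu]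
      exact hdiv u (hK hu)
    · rw [D.apply_eq_zero_of_notMem hu]
      exact dvd_zero _
  have hdfin : d.support.Finite := hDfin.subset (fun u hu => by
    simp only [Function.mem_support] at hu ⊢
    intro h0
    apply hu
    simp [d, h0])
  have hEan : AnalyticOnNhd ℂ (fun z => exp (L z / n)) (ball c r) := by
    apply DifferentiableOn.analyticOnNhd _ isOpen_ball
    exact (hL.div_const _).cexp
  refine ⟨(∏ᶠ u, (· - u) ^ d u) * fun z => exp (L z / n), ?_, ?_⟩
  · rw [meromorphicNFOn_mul_iff_left_of_analyticOnNhd hEan (fun u _ => exp_ne_zero _)]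
    exact Function.FactorizedRational.meromorphicNFOn d _
  · intro z hz
    have h1 : ∀ᶠ y in 𝓝[≠] z, y ∈ closedBall c r →
        f y = ((∏ᶠ u, (· - u) ^ D u) • g) y := by
      have := hfg
      rw [Filter.EventuallyEq, Filter.Eventually, mem_codiscreteWithin_iff_forall_mem_nhdsNE] at this
      have h2 := this z (ball_subset_closedBall hz)
      filter_upwards [h2] with y hy hyK
      rcases hy with hy | hy
      · exact hy
      · exact absurd hyK hy
    have h3 : ∀ᶠ y in 𝓝[≠] z, y ∈ ball c r :=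
      eventually_nhdsWithin_of_eventually_nhds (isOpen_ball.mem_nhds hz)
    filter_upwards [h1, h3] with y hy hyB
    rw [hy (ball_subset_closedBall hyB)]
    simp only [Pi.pow_apply, Pi.mul_apply, Pi.smul_apply', smul_eq_mul, mul_pow]
    congr 1
    · rw [Function.FactorizedRational.finprod_eq_fun hdfin,
        Function.FactorizedRational.finprod_eq_fun hDfin]
      simp only
      have hms : (Function.mulSupport fun u => (y - u) ^ d u).Finite :=
        hdfin.subset (fun u hu => by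
          simp only [Function.mem_mulSupport, Function.mem_support] at hu ⊢
          intro h0
          apply hu
          simp [h0])
      rw [finprod_pow hms]
      refine finprod_congr (fun u => ?_)
      rw [← zpow_natCast, ← zpow_mul, hdn]
    · rw [← exp_nat_mul, mul_div_cancel₀ _ (Nat.cast_ne_zero.mpr hn), hexp y hyB]

theorem IsRootOn.meromorphicOrderAt_eq {n : ℕ} {f h : ℂ → ℂ} {B : Set ℂ}
    (hh : IsRootOn n f h B) {z : ℂ} (hz : z ∈ B) :
    meromorphicOrderAt f z = n * meromorphicOrderAt h z := by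
  rw [← meromorphicOrderAt_pow (hh.1 hz).meromorphicAt]
  exact (meromorphicOrderAt_congr (hh.2 z hz)).symm

theorem IsRootOn.order_ne_top {n : ℕ} (hn : n ≠ 0) {f h : ℂ → ℂ} {B : Set ℂ}
    (hh : IsRootOn n f h B) {z : ℂ} (hz : z ∈ B) (hfin : meromorphicOrderAt f z ≠ ⊤) :
    meromorphicOrderAt h z ≠ ⊤ := by
  intro htop
  apply hfin
  rw [hh.meromorphicOrderAt_eq hz, htop]
  exact WithTop.mul_top (by exact_mod_cast hn)

/-- Multiplying a root by an `n`-th root of unity gives a root. -/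
theorem IsRootOn.const_mul {n : ℕ} (hn : n ≠ 0) {f h : ℂ → ℂ} {B : Set ℂ}
    (hh : IsRootOn n f h B) {ζ : ℂ} (hζ : ζ ^ n = 1) :
    IsRootOn n f (fun z => ζ * h z) B := by
  have hζ0 : ζ ≠ 0 := by
    rintro rfl
    simp [hn] at hζ
  refine ⟨fun z hz => ?_, fun z hz => ?_⟩
  · exact (meromorphicNFAt_mul_iff_right (f := h) (g := fun _ => ζ) analyticAt_const hζ0).mpr
      (hh.1 hz)
  · filter_upwards [hh.2 z hz] with y hy
    simp only [Pi.pow_apply] at hy ⊢
    rw [mul_pow, hζ, one_mul, hy]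

/-- Two meromorphic `n`-th roots of the same function on a preconnected open set differ by an
`n`-th root of unity. -/
theorem IsRootOn.eq_const_mul {n : ℕ} (hn : n ≠ 0) {f h h' : ℂ → ℂ} {B : Set ℂ}
    (hB : IsOpen B) (hBc : IsPreconnected B)
    (hfin : ∀ z ∈ B, meromorphicOrderAt f z ≠ ⊤)
    (hh : IsRootOn n f h B) (hh' : IsRootOn n f h' B) :
    ∃ ζ : ℂ, ζ ^ n = 1 ∧ ∀ z ∈ B, h z = ζ * h' z := by
  have hq₀ : MeromorphicOn (h * h'⁻¹) B := fun z hz =>
    (hh.1 hz).meromorphicAt.mul (hh'.1 hz).meromorphicAt.inv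
  set q := toMeromorphicNFOn (h * h'⁻¹) B with hq
  have hqNF : MeromorphicNFOn q B := meromorphicNFOn_toMeromorphicNFOn _ _
  have hqeq : ∀ z ∈ B, q =ᶠ[𝓝[≠] z] h * h'⁻¹ := fun z hz =>
    hq₀.toMeromorphicNFOn_eq_self_on_nhdsNE hz
  -- `h'` does not vanish on punctured neighbourhoods
  have hne' : ∀ z ∈ B, ∀ᶠ y in 𝓝[≠] z, h' y ≠ 0 := fun z hz =>
    (meromorphicOrderAt_ne_top_iff_eventually_ne_zero (hh'.1 hz).meromorphicAt).1
      (hh'.order_ne_top hn hz (hfin z hz))
  -- the order of the quotient is zero everywhere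
  have hord : ∀ z ∈ B, meromorphicOrderAt q z = 0 := by
    intro z hz
    rw [meromorphicOrderAt_congr (hqeq z hz),
      meromorphicOrderAt_mul (hh.1 hz).meromorphicAt (hh'.1 hz).meromorphicAt.inv,
      meromorphicOrderAt_inv]
    have e1 := hh.meromorphicOrderAt_eq hz
    have e2 := hh'.meromorphicOrderAt_eq hz
    have t1 := hh.order_ne_top hn hz (hfin z hz)
    have t2 := hh'.order_ne_top hn hz (hfin z hz)
    lift meromorphicOrderAt h z to ℤ using t1 with a ha
    lift meromorphicOrderAt h' z to ℤ using t2 with b hb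
    have hab : (n : ℤ) * a = n * b := by exact_mod_cast (e1.symm.trans e2)
    have hab' : a = b := mul_left_cancel₀ (by exact_mod_cast hn) hab
    subst hab'
    norm_cast
    simp
  have hqan : ∀ z ∈ B, AnalyticAt ℂ q z := fun z hz =>
    (hqNF hz).meromorphicOrderAt_nonneg_iff_analyticAt.1 (hord z hz).ge
  have hqne : ∀ z ∈ B, q z ≠ 0 := fun z hz =>
    (hqNF hz).meromorphicOrderAt_eq_zero_iff.1 (hord z hz)
  -- `q ^ n = 1` on `B`
  have hqpow : ∀ z ∈ B, q z ^ n = 1 := by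
    intro z hz
    have h1 : ∀ᶠ y in 𝓝[≠] z, q y ^ n = 1 := by
      filter_upwards [hqeq z hz, hne' z hz, hh.2 z hz, hh'.2 z hz] with y hy hy0 hy1 hy2
      simp only [Pi.pow_apply] at hy1 hy2
      rw [hy]
      simp only [Pi.mul_apply, Pi.inv_apply]
      rw [mul_pow, inv_pow, hy1, hy2, ← hy2]
      exact mul_inv_cancel₀ (pow_ne_zero n hy0)
    have h2 : Tendsto (fun y => q y ^ n) (𝓝[≠] z) (𝓝 (q z ^ n)) :=
      (((hqan z hz).continuousAt.pow n).tendsto).mono_left nhdsWithin_le_nhds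
    have h3 : Tendsto (fun y => q y ^ n) (𝓝[≠] z) (𝓝 1) :=
      tendsto_const_nhds.congr' (h1.mono fun y hy => hy.symm)
    exact tendsto_nhds_unique h2 h3
  -- `q` is constant on `B`
  have hqd : DifferentiableOn ℂ q B := fun z hz =>
    (hqan z hz).differentiableAt.differentiableWithinAt
  have hqderiv : B.EqOn (deriv q) 0 := by
    intro z hz
    have h1 : HasDerivAt (fun y => q y ^ n) ((n : ℂ) * q z ^ (n - 1) * deriv q z) z :=
      ((hqan z hz).differentiableAt.hasDerivAt).pow n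
    have h2 : HasDerivAt (fun y => q y ^ n) 0 z := by
      refine (hasDerivAt_const z (1 : ℂ)).congr_of_eventuallyEq ?_
      filter_upwards [hB.mem_nhds hz] with y hy using hqpow y hy
    have h3 := h1.unique h2
    have h4 : (n : ℂ) * q z ^ (n - 1) ≠ 0 :=
      mul_ne_zero (Nat.cast_ne_zero.mpr hn) (pow_ne_zero _ (hqne z hz))
    simpa using (mul_eq_zero.mp h3).resolve_left h4
  rcases B.eq_empty_or_nonempty with hBe | ⟨z₀, hz₀⟩
  · exact ⟨1, one_pow n, fun z hz => by rw [hBe] at hz; exact absurd hz (notMem_empty z)⟩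
  refine ⟨q z₀, hqpow z₀ hz₀, fun z hz => ?_⟩
  have hconst : ∀ y ∈ B, q y = q z₀ := fun y hy =>
    hB.is_const_of_deriv_eq_zero hBc hqd hqderiv hy hz₀
  have hNF2 : MeromorphicNFAt (fun z => q z₀ * h' z) z :=
    (hh'.const_mul hn (hqpow z₀ hz₀)).1 hz
  have hev : h =ᶠ[𝓝[≠] z] fun z => q z₀ * h' z := by
    filter_upwards [hqeq z hz, hne' z hz,
      eventually_nhdsWithin_of_eventually_nhds (hB.mem_nhds hz)] with y hy hy0 hyB
    rw [← hconst y hyB, hy]
    simp only [Pi.mul_apply, Pi.inv_apply]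
    rw [mul_assoc, inv_mul_cancel₀ hy0, mul_one]
  exact (((hh.1 hz).eventuallyEq_nhdsNE_iff_eventuallyEq_nhds hNF2).1 hev).eq_of_nhds

/-- Gluing of local roots along an increasing sequence of preconnected open sets. -/
theorem exists_isRootOn_iUnion {n : ℕ} (hn : n ≠ 0) {f : ℂ → ℂ} (B : ℕ → Set ℂ)
    (hBo : ∀ j, IsOpen (B j)) (hBc : ∀ j, IsPreconnected (B j)) (hmono : Monotone B)
    (hfin : ∀ j, ∀ z ∈ B j, meromorphicOrderAt f z ≠ ⊤)
    (hloc : ∀ j, ∃ h, IsRootOn n f h (B j)) :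
    ∃ h, IsRootOn n f h (⋃ j, B j) := by
  classical
  choose h hh using hloc
  -- recursive renormalisation
  let step : ℕ → (ℂ → ℂ) → (ℂ → ℂ) := fun j g =>
    if hζ : ∃ ζ : ℂ, ζ ^ n = 1 ∧ ∀ z ∈ B j, g z = ζ * h (j + 1) z then
      fun z => Classical.choose hζ * h (j + 1) z
    else h (j + 1)
  let G : ℕ → (ℂ → ℂ) := fun j => Nat.rec (h 0) step j
  have hG0 : G 0 = h 0 := rfl
  have hGs : ∀ j, G (j + 1) = step j (G j) := fun j => rfl
  have key : ∀ j, IsRootOn n f (G j) (B j) ∧ ∀ z ∈ B j, G (j + 1) z = G j z := by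
    have hroot : ∀ j, IsRootOn n f (G j) (B j) := by
      intro j
      induction j with
      | zero => rw [hG0]; exact hh 0
      | succ j ih =>
        have hζ : ∃ ζ : ℂ, ζ ^ n = 1 ∧ ∀ z ∈ B j, G j z = ζ * h (j + 1) z :=
          ih.eq_const_mul hn (hBo j) (hBc j) (hfin j)
            ((hh (j + 1)).mono (hmono (Nat.le_succ j)))
        rw [hGs]
        simp only [step, dif_pos hζ]
        exact (hh (j + 1)).const_mul hn (Classical.choose_spec hζ).1
    intro j
    refine ⟨hroot j, fun z hz => ?_⟩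
    have hζ : ∃ ζ : ℂ, ζ ^ n = 1 ∧ ∀ z ∈ B j, G j z = ζ * h (j + 1) z :=
      (hroot j).eq_const_mul hn (hBo j) (hBc j) (hfin j)
        ((hh (j + 1)).mono (hmono (Nat.le_succ j)))
    rw [hGs]
    simp only [step, dif_pos hζ]
    exact ((Classical.choose_spec hζ).2 z hz).symm
  have compat : ∀ i j, i ≤ j → ∀ z ∈ B i, G j z = G i z := by
    intro i j hij
    induction j, hij using Nat.le_induction with
    | base => intro z _; rfl
    | succ j hij ih =>
      intro z hz
      rw [(key j).2 z (hmono hij hz), ih z hz]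
  let H : ℂ → ℂ := fun z => if hz : ∃ j, z ∈ B j then G (Nat.find hz) z else 0
  have hH : ∀ j, ∀ z ∈ B j, H z = G j z := by
    intro j z hz
    have hex : ∃ j, z ∈ B j := ⟨j, hz⟩
    simp only [H, dif_pos hex]
    exact (compat _ _ (Nat.find_min' hex hz) z (Nat.find_spec hex)).symm
  refine ⟨H, fun z hz => ?_, fun z hz => ?_⟩
  · obtain ⟨j, hj⟩ := mem_iUnion.mp hz
    have : H =ᶠ[𝓝 z] G j := by
      filter_upwards [(hBo j).mem_nhds hj] with y hy using hH j y hy
    exact (meromorphicNFAt_congr this).mpr ((key j).1.1 hj)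
  · obtain ⟨j, hj⟩ := mem_iUnion.mp hz
    filter_upwards [(key j).1.2 z hj,
      eventually_nhdsWithin_of_eventually_nhds ((hBo j).mem_nhds hj)] with y hy hyB
    simp only [Pi.pow_apply] at hy ⊢
    rw [hH j y hyB, hy]

/-- The discs `B(i(j+2), (j+2) - 1/(j+2))` exhaust the upper half plane. -/
def hBall (j : ℕ) : Set ℂ := ball (((j : ℝ) + 2) * I) (((j : ℝ) + 2) - 1 / ((j : ℝ) + 2))

theorem closedBall_subset_upperHalfPlane (j : ℕ) :
    closedBall ((((j : ℝ) + 2) : ℂ) * I) (((j : ℝ) + 2) - 1 / ((j : ℝ) + 2)) ⊆ {z : ℂ | 0 < z.im} := by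
  intro z hz
  have hR : (0 : ℝ) < (j : ℝ) + 2 := by positivity
  rw [mem_closedBall, dist_eq_norm] at hz
  have h1 : |(z - (((j : ℝ) + 2) : ℂ) * I).im| ≤ ‖z - (((j : ℝ) + 2) : ℂ) * I‖ := abs_im_le_norm _
  have h2 : (z - (((j : ℝ) + 2) : ℂ) * I).im = z.im - ((j : ℝ) + 2) := by
    simp
  rw [h2] at h1
  have h3 := (abs_le.mp (h1.trans hz)).1
  have h4 : 0 < 1 / ((j : ℝ) + 2) := by positivity
  simp only [mem_ofPred_eq]
  linarith

theorem hBall_mono : Monotone hBall := by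
  apply monotone_nat_of_le_succ
  intro j
  apply ball_subset_ball'
  have hR : (0 : ℝ) < (j : ℝ) + 2 := by positivity
  have hd : dist ((((j : ℝ) + 2) : ℂ) * I) (((((j + 1 : ℕ) : ℝ) + 2) : ℂ) * I) = 1 := by
    rw [dist_eq_norm, ← sub_mul]
    simp
  rw [hd]
  have h5 : 1 / (((j + 1 : ℕ) : ℝ) + 2) ≤ 1 / ((j : ℝ) + 2) := by
    apply one_div_le_one_div_of_le hR
    push_cast
    linarith
  push_cast at h5 ⊢
  linarith

theorem iUnion_hBall : (⋃ j, hBall j) = {z : ℂ | 0 < z.im} := by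
  apply Subset.antisymm
  · apply iUnion_subset
    intro j
    exact ball_subset_closedBall.trans (closedBall_subset_upperHalfPlane j)
  · intro z hz
    simp only [mem_ofPred_eq] at hz
    obtain ⟨j, hj⟩ := exists_nat_gt ((z.re ^ 2 + z.im ^ 2 + 2) / (2 * z.im))
    refine mem_iUnion.mpr ⟨j, ?_⟩
    have hR : (0 : ℝ) < (j : ℝ) + 2 := by positivity
    have hR1 : (1 : ℝ) ≤ (j : ℝ) + 2 := by linarith [(Nat.cast_nonneg j : (0 : ℝ) ≤ j)]
    rw [hBall, mem_ball, dist_eq_norm]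
    have hrad : 0 ≤ ((j : ℝ) + 2) - 1 / ((j : ℝ) + 2) := by
      have : 1 / ((j : ℝ) + 2) ≤ 1 := by
        rw [div_le_one hR]; exact hR1
      linarith
    rw [← abs_of_nonneg hrad, ← Real.sqrt_sq_eq_abs, Complex.norm_eq_sqrt_sq_add_sq]
    apply Real.sqrt_lt_sqrt (by positivity)
    have e1 : (z - (((j : ℝ) + 2) : ℂ) * I).re = z.re := by simp
    have e2 : (z - (((j : ℝ) + 2) : ℂ) * I).im = z.im - ((j : ℝ) + 2) := by simp
    rw [e1, e2]
    have h6 : (z.re ^ 2 + z.im ^ 2 + 2) < 2 * z.im * ((j : ℝ) + 2) := by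
      have := (div_lt_iff₀ (by positivity : (0 : ℝ) < 2 * z.im)).mp hj
      nlinarith
    have h7 : (((j : ℝ) + 2) - 1 / ((j : ℝ) + 2)) ^ 2
        = ((j : ℝ) + 2) ^ 2 - 2 + (1 / ((j : ℝ) + 2)) ^ 2 := by
      field_simp
      ring
    rw [h7]
    have h8 : 0 ≤ (1 / ((j : ℝ) + 2)) ^ 2 := by positivity
    nlinarith

/-- **Meromorphic `n`-th roots on the upper half plane.** A meromorphic function on the upper half
plane all of whose orders are finite and divisible by `n` is the `n`-th power of a meromorphic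
function in normal form. -/
theorem exists_isRootOn_upperHalfPlane {n : ℕ} (hn : n ≠ 0) {f : ℂ → ℂ}
    (hf : MeromorphicOn f {z : ℂ | 0 < z.im})
    (hfin : ∀ z : ℂ, 0 < z.im → meromorphicOrderAt f z ≠ ⊤)
    (hdiv : ∀ z : ℂ, 0 < z.im → (n : ℤ) ∣ (meromorphicOrderAt f z).untop₀) :
    ∃ h, IsRootOn n f h {z : ℂ | 0 < z.im} := by
  rw [← iUnion_hBall]
  have hsub : ∀ j, hBall j ⊆ {z : ℂ | 0 < z.im} := fun j =>
    ball_subset_closedBall.trans (by
      have := closedBall_subset_upperHalfPlane j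
      simpa using this)
  refine exists_isRootOn_iUnion hn hBall (fun j => isOpen_ball)
    (fun j => (convex_ball _ _).isPreconnected) hBall_mono
    (fun j z hz => hfin z (hsub j hz)) (fun j => ?_)
  have := exists_isRootOn_ball hn hf (fun z hz => hfin z hz) (fun z hz => hdiv z hz)
    (closedBall_subset_upperHalfPlane j)
  simpa [hBall] using this

/-! ### Further properties of roots -/

theorem IsRootOn.congr {n : ℕ} {f f' h : ℂ → ℂ} {B : Set ℂ} (hh : IsRootOn n f h B)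
    (hff : ∀ z ∈ B, f =ᶠ[𝓝[≠] z] f') : IsRootOn n f' h B :=
  ⟨hh.1, fun z hz => (hh.2 z hz).trans (hff z hz)⟩

/-- Where `f` is analytic, so is its root. -/
theorem IsRootOn.analyticAt {n : ℕ} (hn : n ≠ 0) {f h : ℂ → ℂ} {B : Set ℂ}
    (hh : IsRootOn n f h B) {z : ℂ} (hz : z ∈ B) (hf : AnalyticAt ℂ f z) : AnalyticAt ℂ h z := by
  apply (hh.1 hz).meromorphicOrderAt_nonneg_iff_analyticAt.1
  have h1 : 0 ≤ meromorphicOrderAt f z := by
    rw [hf.meromorphicOrderAt_eq]
    exact (ENat.map_natCast_nonneg)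
  rw [hh.meromorphicOrderAt_eq hz] at h1
  cases hcase : meromorphicOrderAt h z with
  | top => exact le_top
  | coe a =>
    rw [hcase] at h1
    have h2 : (0 : ℤ) ≤ (n : ℤ) * a := by exact_mod_cast h1
    have h3 : 0 ≤ a := nonneg_of_mul_nonneg_right h2 (by exact_mod_cast Nat.pos_of_ne_zero hn)
    exact_mod_cast h3

/-- Where `f` is analytic, the root equation holds pointwise. -/
theorem IsRootOn.pow_eq {n : ℕ} (hn : n ≠ 0) {f h : ℂ → ℂ} {B : Set ℂ}
    (hh : IsRootOn n f h B) {z : ℂ} (hz : z ∈ B) (hf : AnalyticAt ℂ f z) : h z ^ n = f z := by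
  have han := hh.analyticAt hn hz hf
  have h1 : (fun y => h y ^ n) =ᶠ[𝓝[≠] z] f := hh.2 z hz
  exact (((han.continuousAt.pow n).eventuallyEq_nhds_iff_eventuallyEq_nhdsNE
    hf.continuousAt).1 h1).eq_of_nhds

/-- A root does not vanish identically near any point. -/
theorem IsRootOn.eventually_ne_zero {n : ℕ} (hn : n ≠ 0) {f h : ℂ → ℂ} {B : Set ℂ}
    (hh : IsRootOn n f h B) {z : ℂ} (hz : z ∈ B) (hfin : meromorphicOrderAt f z ≠ ⊤) :
    ∀ᶠ y in 𝓝[≠] z, h y ≠ 0 :=
  (meromorphicOrderAt_ne_top_iff_eventually_ne_zero (hh.1 hz).meromorphicAt).1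
    (hh.order_ne_top hn hz hfin)

theorem IsRootOn.exists_ne_zero {n : ℕ} (hn : n ≠ 0) {f h : ℂ → ℂ} {B : Set ℂ} (hB : IsOpen B)
    (hh : IsRootOn n f h B) {z : ℂ} (hz : z ∈ B) (hfin : meromorphicOrderAt f z ≠ ⊤) :
    ∃ y ∈ B, h y ≠ 0 := by
  have h1 := hh.eventually_ne_zero hn hz hfin
  have h2 : ∀ᶠ y in 𝓝[≠] z, y ∈ B := eventually_nhdsWithin_of_eventually_nhds (hB.mem_nhds hz)
  obtain ⟨y, hy1, hy2⟩ := (h1.and h2).exists
  exact ⟨y, hy2, hy1⟩

/-- Pull-back of a root along a locally injective holomorphic map. -/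
theorem IsRootOn.comp {n : ℕ} {f h : ℂ → ℂ} {B B' : Set ℂ} (hh : IsRootOn n f h B)
    {γ : ℂ → ℂ} (hγ : ∀ z ∈ B', AnalyticAt ℂ γ z) (hγ' : ∀ z ∈ B', deriv γ z ≠ 0)
    (hmaps : MapsTo γ B' B) : IsRootOn n (f ∘ γ) (h ∘ γ) B' := by
  refine ⟨fun z hz => (hh.1 (hmaps hz)).comp_analyticAt (hγ z hz), fun z hz => ?_⟩
  have ht : Tendsto γ (𝓝[≠] z) (𝓝[≠] (γ z)) :=
    ((hγ z hz).differentiableAt.hasDerivAt).tendsto_nhdsNE (hγ' z hz)
  exact ht.eventually (hh.2 (γ z) (hmaps hz))

/-- **The Kummer multiplier.** If `f` is invariant under a locally injective holomorphic self-map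
`γ` of a preconnected open set `B`, then a root `h` of `f` is multiplied by an `n`-th root of
unity under `γ`. -/
theorem IsRootOn.exists_const_comp {n : ℕ} (hn : n ≠ 0) {f h : ℂ → ℂ} {B : Set ℂ}
    (hB : IsOpen B) (hBc : IsPreconnected B)
    (hfin : ∀ z ∈ B, meromorphicOrderAt f z ≠ ⊤) (hh : IsRootOn n f h B)
    {γ : ℂ → ℂ} (hγ : ∀ z ∈ B, AnalyticAt ℂ γ z) (hγ' : ∀ z ∈ B, deriv γ z ≠ 0)
    (hmaps : MapsTo γ B B) (hfγ : ∀ z ∈ B, f ∘ γ =ᶠ[𝓝[≠] z] f) :
    ∃ ζ : ℂ, ζ ^ n = 1 ∧ ∀ z ∈ B, h (γ z) = ζ * h z :=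
  ((hh.comp hγ hγ' hmaps).congr hfγ).eq_const_mul hn hB hBc hfin hh

/-- The multiplier is unique. -/
theorem IsRootOn.const_unique {n : ℕ} (hn : n ≠ 0) {f h : ℂ → ℂ} {B : Set ℂ} (hB : IsOpen B)
    (hh : IsRootOn n f h B) {z₀ : ℂ} (hz₀ : z₀ ∈ B) (hfin : meromorphicOrderAt f z₀ ≠ ⊤)
    {γ : ℂ → ℂ} {ζ ζ' : ℂ} (h1 : ∀ z ∈ B, h (γ z) = ζ * h z)
    (h2 : ∀ z ∈ B, h (γ z) = ζ' * h z) : ζ = ζ' := by
  obtain ⟨y, hy, hy0⟩ := hh.exists_ne_zero hn hB hz₀ hfin
  exact mul_right_cancel₀ hy0 ((h1 y hy).symm.trans (h2 y hy))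

/-- Holomorphic version: a holomorphic function on the upper half plane, not identically zero
near any point, all of whose zeros have order divisible by `n`, is the `n`-th power of a
holomorphic function. -/
theorem exists_differentiableOn_pow_eq {n : ℕ} (hn : n ≠ 0) {f : ℂ → ℂ}
    (hf : DifferentiableOn ℂ f {z : ℂ | 0 < z.im})
    (hfin : ∀ z : ℂ, 0 < z.im → analyticOrderAt f z ≠ ⊤)
    (hdiv : ∀ z : ℂ, 0 < z.im → n ∣ analyticOrderNatAt f z) :
    ∃ h : ℂ → ℂ, DifferentiableOn ℂ h {z : ℂ | 0 < z.im} ∧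
      ∀ z : ℂ, 0 < z.im → h z ^ n = f z := by
  have hUo : IsOpen {z : ℂ | 0 < z.im} := isOpen_lt continuous_const Complex.continuous_im
  have han : ∀ z : ℂ, 0 < z.im → AnalyticAt ℂ f z := fun z hz =>
    hf.analyticAt (hUo.mem_nhds hz)
  have hord : ∀ z : ℂ, 0 < z.im →
      meromorphicOrderAt f z = ((analyticOrderNatAt f z : ℤ) : WithTop ℤ) := by
    intro z hz
    rw [(han z hz).meromorphicOrderAt_eq]
    have := hfin z hz
    rw [← Nat.cast_analyticOrderNatAt this]
    rfl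
  obtain ⟨h, hh⟩ := exists_isRootOn_upperHalfPlane hn
    (fun z hz => (han z hz).meromorphicAt)
    (fun z hz => by rw [hord z hz]; exact WithTop.coe_ne_top)
    (fun z hz => by
      rw [hord z hz, WithTop.untop₀_coe]
      exact Int.natCast_dvd_natCast.mpr (hdiv z hz))
  exact ⟨h, fun z hz => (hh.analyticAt hn hz (han z hz)).differentiableAt.differentiableWithinAt,
    fun z hz => hh.pow_eq hn hz (han z hz)⟩

/-- The order of the root is the order of `f` divided by `n`. -/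
theorem IsRootOn.untop₀_order_mul {n : ℕ} (hn : n ≠ 0) {f h : ℂ → ℂ} {B : Set ℂ}
    (hh : IsRootOn n f h B) {z : ℂ} (hz : z ∈ B) (hfin : meromorphicOrderAt f z ≠ ⊤) :
    (n : ℤ) * (meromorphicOrderAt h z).untop₀ = (meromorphicOrderAt f z).untop₀ := by
  have e := hh.meromorphicOrderAt_eq hz
  have t := hh.order_ne_top hn hz hfin
  lift meromorphicOrderAt h z to ℤ using t with a ha
  rw [e]
  simp only [WithTop.untop₀_coe]
  have : ((n : WithTop ℤ) * (a : WithTop ℤ)) = (((n : ℤ) * a : ℤ) : WithTop ℤ) := by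
    push_cast
    rfl
  rw [this, WithTop.untop₀_coe]

/-- Quotient version: if `G₁, G₂` are holomorphic on the upper half plane, not identically zero
near any point, and `ord_z G₁ - ord_z G₂` is divisible by `n` everywhere, then `G₁ / G₂` has a
meromorphic `n`-th root. -/
theorem exists_isRootOn_div {n : ℕ} (hn : n ≠ 0) {G₁ G₂ : ℂ → ℂ}
    (h₁ : DifferentiableOn ℂ G₁ {z : ℂ | 0 < z.im})
    (h₂ : DifferentiableOn ℂ G₂ {z : ℂ | 0 < z.im})
    (hfin₁ : ∀ z : ℂ, 0 < z.im → analyticOrderAt G₁ z ≠ ⊤)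
    (hfin₂ : ∀ z : ℂ, 0 < z.im → analyticOrderAt G₂ z ≠ ⊤)
    (hdiv : ∀ z : ℂ, 0 < z.im →
      (n : ℤ) ∣ (analyticOrderNatAt G₁ z : ℤ) - (analyticOrderNatAt G₂ z : ℤ)) :
    ∃ h, IsRootOn n (fun z => G₁ z / G₂ z) h {z : ℂ | 0 < z.im} := by
  have hUo : IsOpen {z : ℂ | 0 < z.im} := isOpen_lt continuous_const Complex.continuous_im
  have han₁ : ∀ z : ℂ, 0 < z.im → AnalyticAt ℂ G₁ z := fun z hz =>
    h₁.analyticAt (hUo.mem_nhds hz)
  have han₂ : ∀ z : ℂ, 0 < z.im → AnalyticAt ℂ G₂ z := fun z hz =>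
    h₂.analyticAt (hUo.mem_nhds hz)
  have hord : ∀ (G : ℂ → ℂ) (z : ℂ), AnalyticAt ℂ G z → analyticOrderAt G z ≠ ⊤ →
      meromorphicOrderAt G z = ((analyticOrderNatAt G z : ℤ) : WithTop ℤ) := by
    intro G z hG hne
    rw [hG.meromorphicOrderAt_eq, ← Nat.cast_analyticOrderNatAt hne]
    rfl
  have hq : ∀ z : ℂ, 0 < z.im → meromorphicOrderAt (fun z => G₁ z / G₂ z) z
      = (((analyticOrderNatAt G₁ z : ℤ) - (analyticOrderNatAt G₂ z : ℤ) : ℤ) : WithTop ℤ) := by
    intro z hz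
    have e : (fun z => G₁ z / G₂ z) = G₁ * G₂⁻¹ := by
      ext y
      simp [div_eq_mul_inv]
    rw [e, meromorphicOrderAt_mul (han₁ z hz).meromorphicAt (han₂ z hz).meromorphicAt.inv,
      meromorphicOrderAt_inv, hord G₁ z (han₁ z hz) (hfin₁ z hz),
      hord G₂ z (han₂ z hz) (hfin₂ z hz)]
    rfl
  exact exists_isRootOn_upperHalfPlane hn
    (fun z hz => (han₁ z hz).meromorphicAt.div (han₂ z hz).meromorphicAt)
    (fun z hz => by rw [hq z hz]; exact WithTop.coe_ne_top)
    (fun z hz => by rw [hq z hz, WithTop.untop₀_coe]; exact hdiv z hz)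

end Fermat.Agent.Lib.Analysis.NthRoot
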