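import Mathlib
import Fermat.Agent.Lib.Analysis.NthRoot

/-!
# The Kummer multiplier at a cusp

Let `h` be a meromorphic `n`-th root of `f` on the upper half plane with `h (z + w) = ζ * h z`.
If `f` has order `k` at `i∞` with respect to `q_w = exp (2πiz/w)`, then `ζ = exp (2πi k / n)`.
In particular the multiplier of the translation is trivial iff `n ∣ k`.
-/

set_option autoImplicit false

open Complex Metric Set Filter Topology
open scoped Real
open Fermat.Agent.Lib.Analysis.NthRoot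

noncomputable section

namespace Fermat.Agent.Lib.Analysis.CuspMultiplier

/-- A branch of the `n`-th root near `c ≠ 0`. -/
def localRoot (n : ℕ) (c : ℂ) (v : ℂ) : ℂ := exp (log c / n) * exp (log (v / c) / n)

theorem localRoot_pow {n : ℕ} (hn : n ≠ 0) {c v : ℂ} (hc : c ≠ 0) (hv : v ≠ 0) :
    localRoot n c v ^ n = v := by
  have hn' : (n : ℂ) ≠ 0 := Nat.cast_ne_zero.mpr hn
  unfold localRoot
  rw [mul_pow, ← exp_nat_mul, ← exp_nat_mul, mul_div_cancel₀ _ hn', mul_div_cancel₀ _ hn',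
    exp_log hc, exp_log (div_ne_zero hv hc), mul_div_cancel₀ _ hc]

theorem analyticAt_localRoot_comp {n : ℕ} {c : ℂ} (hc : c ≠ 0) {F : ℂ → ℂ} {z : ℂ}
    (hF : AnalyticAt ℂ F z) (hclose : ‖F z - c‖ < ‖c‖) :
    AnalyticAt ℂ (fun z => localRoot n c (F z)) z := by
  unfold localRoot
  have h1 : F z / c ∈ slitPlane := by
    have : F z / c = 1 + (F z - c) / c := by field_simp; ring
    rw [this]
    apply mem_slitPlane_of_norm_lt_one
    rw [norm_div]
    exact (div_lt_one (norm_pos_iff.mpr hc)).mpr hclose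
  have h2 : AnalyticAt ℂ (fun z => log (F z / c)) z := (hF.div analyticAt_const hc).clog h1
  have h3 : AnalyticAt ℂ (fun z => log (F z / c) / n) z := by
    simp only [div_eq_mul_inv]
    exact h2.mul analyticAt_const
  exact analyticAt_const.mul h3.cexp

/-- **Multiplier at the cusp `i∞`.** -/
theorem cusp_multiplier {n : ℕ} (hn : n ≠ 0) {f h : ℂ → ℂ}
    (hh : IsRootOn n f h {z : ℂ | 0 < z.im}) {w : ℝ} (hw : 0 < w) {ζ : ℂ} (hζn : ζ ^ n = 1)
    (hζ : ∀ z : ℂ, 0 < z.im → h (z + w) = ζ * h z)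
    {k : ℤ} {c : ℂ} (hc : c ≠ 0) {Y : ℝ} (hfan : ∀ z : ℂ, Y < z.im → AnalyticAt ℂ f z)
    (hlim : Tendsto (fun z : ℂ => Function.Periodic.qParam w z ^ (-k) * f z)
      (comap Complex.im atTop) (𝓝 c)) :
    ζ = exp (2 * π * I * k / n) := by
  have hn' : (n : ℂ) ≠ 0 := Nat.cast_ne_zero.mpr hn
  have hw' : (w : ℂ) ≠ 0 := ofReal_ne_zero.mpr hw.ne'
  set F : ℂ → ℂ := fun z => Function.Periodic.qParam w z ^ (-k) * f z with hFdef
  -- a half plane on which `F` is close to `c`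
  obtain ⟨y₀, hy₀Y, hy₀0, hy₀⟩ : ∃ y₀ : ℝ, Y ≤ y₀ ∧ 0 ≤ y₀ ∧
      ∀ z : ℂ, y₀ < z.im → ‖F z - c‖ < ‖c‖ := by
    have h1 := hlim.eventually (ball_mem_nhds c (norm_pos_iff.mpr hc))
    rw [Filter.eventually_comap] at h1
    obtain ⟨a, ha⟩ := eventually_atTop.mp h1
    refine ⟨max a (max Y 0), (le_max_left _ _).trans (le_max_right _ _) |>.trans' (le_refl _) , ?_, ?_⟩
    · exact (le_max_right _ _).trans (le_max_right _ _)
    · intro z hz
      have := ha z.im ((le_max_left _ _).trans hz.le) z rfl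
      simpa [dist_eq_norm] using this
  set W : Set ℂ := {z : ℂ | y₀ < z.im} with hWdef
  have hWo : IsOpen W := isOpen_lt continuous_const Complex.continuous_im
  have hWc : IsPreconnected W := (convex_halfSpace_im_gt y₀).isPreconnected
  have hWU : ∀ z ∈ W, 0 < z.im := fun z hz => lt_of_le_of_lt hy₀0 hz
  have hfanW : ∀ z ∈ W, AnalyticAt ℂ f z := fun z hz => hfan z (lt_of_le_of_lt hy₀Y hz)
  have hqan : ∀ z, AnalyticAt ℂ (fun z => Function.Periodic.qParam w z ^ (-k)) z := by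
    intro z
    have h1 : AnalyticAt ℂ (Function.Periodic.qParam w) z := by
      unfold Function.Periodic.qParam
      fun_prop
    exact h1.zpow (Function.Periodic.qParam_ne_zero z)
  have hFan : ∀ z ∈ W, AnalyticAt ℂ F z := fun z hz => (hqan z).mul (hfanW z hz)
  have hFne : ∀ z ∈ W, F z ≠ 0 := by
    intro z hz h0
    have := hy₀ z hz
    rw [h0, zero_sub, norm_neg] at this
    exact lt_irrefl _ this
  have hhan : ∀ z ∈ W, AnalyticAt ℂ h z := fun z hz =>
    hh.analyticAt hn (hWU z hz) (hfanW z hz)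
  have hhpow : ∀ z ∈ W, h z ^ n = f z := fun z hz => hh.pow_eq hn (hWU z hz) (hfanW z hz)
  -- the twisted root
  set E : ℂ → ℂ := fun z => exp (-(2 * π * I * k * z / (n * w))) with hEdef
  have hEpow : ∀ z, E z ^ n = Function.Periodic.qParam w z ^ (-k) := by
    intro z
    simp only [hEdef, Function.Periodic.qParam]
    rw [← exp_nat_mul, ← exp_int_mul]
    congr 1
    push_cast
    field_simp
  have hEan : ∀ z, AnalyticAt ℂ E z := by
    intro z
    simp only [hEdef]
    fun_prop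
  set h₂ : ℂ → ℂ := fun z => E z * h z with h₂def
  have h₂pow : ∀ z ∈ W, h₂ z ^ n = F z := by
    intro z hz
    simp only [h₂def, hFdef, mul_pow, hEpow, hhpow z hz]
  have h₂an : ∀ z ∈ W, AnalyticAt ℂ h₂ z := fun z hz => (hEan z).mul (hhan z hz)
  set r : ℂ → ℂ := fun z => localRoot n c (F z) with hrdef
  have hran : ∀ z ∈ W, AnalyticAt ℂ r z := fun z hz =>
    analyticAt_localRoot_comp hc (hFan z hz) (hy₀ z hz)
  have hrpow : ∀ z ∈ W, r z ^ n = F z := fun z hz => localRoot_pow hn hc (hFne z hz)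
  have root₂ : IsRootOn n F h₂ W := ⟨fun z hz => (h₂an z hz).meromorphicNFAt, fun z hz => by
    filter_upwards [eventually_nhdsWithin_of_eventually_nhds (hWo.mem_nhds hz)] with y hy
    simpa using h₂pow y hy⟩
  have rootr : IsRootOn n F r W := ⟨fun z hz => (hran z hz).meromorphicNFAt, fun z hz => by
    filter_upwards [eventually_nhdsWithin_of_eventually_nhds (hWo.mem_nhds hz)] with y hy
    simpa using hrpow y hy⟩
  have hFfin : ∀ z ∈ W, meromorphicOrderAt F z ≠ ⊤ := by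
    intro z hz
    have := ((hFan z hz).meromorphicNFAt.meromorphicOrderAt_eq_zero_iff).2 (hFne z hz)
    rw [this]
    exact WithTop.zero_ne_top
  obtain ⟨ξ, hξn, hξ⟩ := root₂.eq_const_mul hn hWo hWc hFfin rootr
  -- periodicity of `F` on `W`
  have hshift : ∀ z ∈ W, z + w ∈ W := by
    intro z hz
    simp only [hWdef, mem_ofPred_eq, add_im, ofReal_im, add_zero] at hz ⊢
    exact hz
  have hqper : ∀ z : ℂ, Function.Periodic.qParam w (z + w) = Function.Periodic.qParam w z := by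
    intro z
    simp only [Function.Periodic.qParam]
    have : 2 * π * I * (z + w) / w = 2 * π * I * z / w + 2 * π * I := by
      field_simp
    rw [this, exp_add, exp_two_pi_mul_I, mul_one]
  have hFper : ∀ z ∈ W, F (z + w) = F z := by
    intro z hz
    simp only [hFdef]
    rw [hqper z, ← hhpow z hz, ← hhpow (z + w) (hshift z hz), hζ z (hWU z hz), mul_pow, hζn,
      one_mul]
  -- conclusion
  obtain ⟨z₀, hz₀⟩ : W.Nonempty := ⟨((y₀ + 1 : ℝ) : ℂ) * I, by simp [hWdef]⟩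
  have e1 : h₂ (z₀ + w) = h₂ z₀ := by
    rw [hξ _ (hshift z₀ hz₀), hξ z₀ hz₀]
    simp only [hrdef]
    rw [hFper z₀ hz₀]
  have e2 : h₂ (z₀ + w) = exp (-(2 * π * I * k / n)) * ζ * h₂ z₀ := by
    simp only [h₂def, hEdef]
    rw [hζ z₀ (hWU z₀ hz₀)]
    have : exp (-(2 * π * I * k * (z₀ + w) / (n * w)))
        = exp (-(2 * π * I * k / n)) * exp (-(2 * π * I * k * z₀ / (n * w))) := by
      rw [← exp_add]
      congr 1
      field_simp
      ring
    rw [this]
    ring
  have h₂ne : h₂ z₀ ≠ 0 := by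
    intro h0
    have := h₂pow z₀ hz₀
    rw [h0, zero_pow hn] at this
    exact hFne z₀ hz₀ this.symm
  have e3 : exp (-(2 * π * I * k / n)) * ζ = 1 := by
    have := e2.symm.trans e1
    exact mul_right_cancel₀ h₂ne (by rw [this, one_mul])
  have e4 : ζ = exp (2 * π * I * k / n) * (exp (-(2 * π * I * k / n)) * ζ) := by
    rw [← mul_assoc, ← exp_add]
    simp
  rw [e4, e3, mul_one]

theorem exp_two_pi_div_eq_one_iff {n : ℕ} (hn : n ≠ 0) (k : ℤ) :
    exp (2 * π * I * k / n) = 1 ↔ (n : ℤ) ∣ k := by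
  have hn' : (n : ℂ) ≠ 0 := Nat.cast_ne_zero.mpr hn
  rw [Complex.exp_eq_one_iff]
  constructor
  · rintro ⟨m, hm⟩
    refine ⟨m, ?_⟩
    have h1 : (k : ℂ) = (n : ℂ) * m := by
      field_simp at hm
      linear_combination hm
    exact_mod_cast h1
  · rintro ⟨m, rfl⟩
    refine ⟨m, ?_⟩
    push_cast
    field_simp

/-- The multiplier of the translation is trivial iff `n` divides the order of `f` at the cusp. -/
theorem cusp_multiplier_eq_one_iff {n : ℕ} (hn : n ≠ 0) {f h : ℂ → ℂ}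
    (hh : IsRootOn n f h {z : ℂ | 0 < z.im}) {w : ℝ} (hw : 0 < w) {ζ : ℂ} (hζn : ζ ^ n = 1)
    (hζ : ∀ z : ℂ, 0 < z.im → h (z + w) = ζ * h z)
    {k : ℤ} {c : ℂ} (hc : c ≠ 0) {Y : ℝ} (hfan : ∀ z : ℂ, Y < z.im → AnalyticAt ℂ f z)
    (hlim : Tendsto (fun z : ℂ => Function.Periodic.qParam w z ^ (-k) * f z)
      (comap Complex.im atTop) (𝓝 c)) :
    ζ = 1 ↔ (n : ℤ) ∣ k := by
  rw [cusp_multiplier hn hh hw hζn hζ hc hfan hlim]
  exact exp_two_pi_div_eq_one_iff hn k

/-- Transfer of a limit along `UpperHalfPlane.atImInfty` to a limit along `comap im atTop`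
on `ℂ`. -/
theorem tendsto_comap_im_of_atImInfty {g : ℂ → ℂ} {c : ℂ}
    (hg : Tendsto (fun τ : UpperHalfPlane => g τ) UpperHalfPlane.atImInfty (𝓝 c)) :
    Tendsto g (comap Complex.im atTop) (𝓝 c) := by
  intro s hs
  have h1 := hg hs
  rw [Filter.mem_map, UpperHalfPlane.atImInfty_mem] at h1
  obtain ⟨A, hA⟩ := h1
  rw [Filter.mem_map, Filter.mem_comap]
  refine ⟨Ici (max A 1), Ici_mem_atTop _, fun z hz => ?_⟩
  have hz' : max A 1 ≤ z.im := hz
  have hpos : 0 < z.im := lt_of_lt_of_le one_pos ((le_max_right _ _).trans hz')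
  exact hA ⟨z, hpos⟩ ((le_max_left _ _).trans hz')

/-- **Multiplier at the cusp `i∞`**, with the order at the cusp expressed by a limit along
`UpperHalfPlane.atImInfty` (the shape of `HasOrdInf`). -/
theorem cusp_multiplier_atImInfty {n : ℕ} (hn : n ≠ 0) {f h : ℂ → ℂ}
    (hh : IsRootOn n f h {z : ℂ | 0 < z.im}) {w : ℝ} (hw : 0 < w) {ζ : ℂ} (hζn : ζ ^ n = 1)
    (hζ : ∀ z : ℂ, 0 < z.im → h (z + w) = ζ * h z)
    {k : ℤ} {c : ℂ} (hc : c ≠ 0) {Y : ℝ} (hfan : ∀ z : ℂ, Y < z.im → AnalyticAt ℂ f z)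
    (hlim : Tendsto (fun τ : UpperHalfPlane => Function.Periodic.qParam w τ ^ (-k) * f τ)
      UpperHalfPlane.atImInfty (𝓝 c)) :
    ζ = exp (2 * π * I * k / n) ∧ (ζ = 1 ↔ (n : ℤ) ∣ k) :=
  ⟨cusp_multiplier hn hh hw hζn hζ hc hfan
      (tendsto_comap_im_of_atImInfty (g := fun z => Function.Periodic.qParam w z ^ (-k) * f z) hlim),
    cusp_multiplier_eq_one_iff hn hh hw hζn hζ hc hfan
      (tendsto_comap_im_of_atImInfty (g := fun z => Function.Periodic.qParam w z ^ (-k) * f z) hlim)⟩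

end Fermat.Agent.Lib.Analysis.CuspMultiplier
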