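import Mathlib

/-!
# Eisenstein series with a character of `Γ₀(N)`

For a character `χ` of `Γ₀(N)` which is trivial on `T` and `-1` and has values of absolute value
one, the series `G_χ(z) = ½ Σ_{(c,d)} χ̃(c,d) (cz+d)⁻ᵏ` (sum over the bottom rows of `Γ₀(N)`)
is holomorphic on the upper half plane, satisfies `G_χ(γ z) = χ(γ) (cz+d)ᵏ G_χ(z)`, tends to `1`
at `i∞` and is bounded at all cusps.

The first part develops "weighted Eisenstein series" `Σ φ(v) (v₀ z + v₁)⁻ᵏ` for a bounded weight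
`φ` on `ℤ²`.
-/

set_option autoImplicit false

open Complex UpperHalfPlane Filter Topology Matrix ModularGroup EisensteinSeries
  CongruenceSubgroup ModularForm
open scoped MatrixGroups Manifold

noncomputable section

namespace Fermat.Agent.Lib.Analysis.EisensteinChar

/-- Weighted Eisenstein series. -/
def wEis (φ : (Fin 2 → ℤ) → ℂ) (k : ℤ) (z : ℍ) : ℂ :=
  ∑' v : Fin 2 → ℤ, φ v * eisSummand k v z

variable {φ : (Fin 2 → ℤ) → ℂ} {k : ℤ}

lemma norm_term_le (hφ : ∀ v, ‖φ v‖ ≤ 1) (v : Fin 2 → ℤ) (z : ℍ) :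
    ‖φ v * eisSummand k v z‖ ≤ ‖eisSummand k v z‖ := by
  rw [norm_mul]
  exact mul_le_of_le_one_left (norm_nonneg _) (hφ v)

lemma summable_norm_term (hφ : ∀ v, ‖φ v‖ ≤ 1) (hk : 3 ≤ k) (z : ℍ) :
    Summable fun v => ‖φ v * eisSummand k v z‖ :=
  (summable_norm_eisSummand hk z).of_nonneg_of_le (fun _ => norm_nonneg _)
    (fun v => norm_term_le hφ v z)

lemma summable_term (hφ : ∀ v, ‖φ v‖ ≤ 1) (hk : 3 ≤ k) (z : ℍ) :
    Summable fun v => φ v * eisSummand k v z :=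
  (summable_norm_term hφ hk z).of_norm

/-- Right multiplication by `γ ∈ SL(2, ℤ)` as a permutation of `ℤ²`. -/
def vecMulEquiv (γ : SL(2, ℤ)) : (Fin 2 → ℤ) ≃ (Fin 2 → ℤ) where
  toFun v := v ᵥ* (γ : Matrix (Fin 2) (Fin 2) ℤ)
  invFun v := v ᵥ* ((γ⁻¹ : SL(2, ℤ)) : Matrix (Fin 2) (Fin 2) ℤ)
  left_inv v := by
    simp_rw [vecMul_vecMul, ← Matrix.SpecialLinearGroup.coe_mul, mul_inv_cancel,
      Matrix.SpecialLinearGroup.coe_one, vecMul_one]
  right_inv v := by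
    simp_rw [vecMul_vecMul, ← Matrix.SpecialLinearGroup.coe_mul, inv_mul_cancel,
      Matrix.SpecialLinearGroup.coe_one, vecMul_one]

/-- The slash action permutes the weights. -/
theorem wEis_slash (φ : (Fin 2 → ℤ) → ℂ) (k : ℤ) (γ : SL(2, ℤ)) :
    wEis φ k ∣[k] γ =
      wEis (fun v => φ (v ᵥ* ((γ⁻¹ : SL(2, ℤ)) : Matrix (Fin 2) (Fin 2) ℤ))) k := by
  ext z
  rw [SL_slash_apply]
  simp only [wEis, eisSummand_SL2_apply]
  rw [← tsum_mul_right, ← (vecMulEquiv γ).tsum_eq (fun v =>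
    φ (v ᵥ* ((γ⁻¹ : SL(2, ℤ)) : Matrix (Fin 2) (Fin 2) ℤ)) * eisSummand k v z)]
  refine tsum_congr (fun v => ?_)
  have h1 : (vecMulEquiv γ v) ᵥ* ((γ⁻¹ : SL(2, ℤ)) : Matrix (Fin 2) (Fin 2) ℤ) = v :=
    (vecMulEquiv γ).left_inv v
  rw [h1]
  have h2 : (vecMulEquiv γ v) = v ᵥ* (γ : Matrix (Fin 2) (Fin 2) ℤ) := rfl
  rw [h2]
  have h3 : denom γ z ≠ 0 := denom_ne_zero γ z
  rw [_root_.zpow_neg]
  field_simp

/-- The defining sum converges locally uniformly on `ℍ`. -/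
theorem wEis_tendstoLocallyUniformly (hφ : ∀ v, ‖φ v‖ ≤ 1) (hk : 3 ≤ k) :
    TendstoLocallyUniformly
      (fun (s : Finset (Fin 2 → ℤ)) ↦ (∑ x ∈ s, φ x * eisSummand k x ·))
      (wEis φ k ·) Filter.atTop := by
  have hk' : (2 : ℝ) < k := by norm_cast
  have p_sum : Summable fun x : Fin 2 → ℤ ↦ ‖x‖ ^ (-k) :=
    mod_cast (summable_one_div_norm_rpow hk')
  simp only [tendstoLocallyUniformly_iff_forall_isCompact, wEis]
  intro K hK
  obtain ⟨A, B, hB, HABK⟩ := subset_verticalStrip_of_isCompact hK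
  refine (tendstoUniformlyOn_tsum (hu := p_sum.mul_left <| r ⟨⟨A, B⟩, hB⟩ ^ (-k : ℝ))
    (fun p z hz ↦ ?_)).mono HABK
  refine (norm_term_le hφ p z).trans ?_
  simpa only [eisSummand, one_div, ← _root_.zpow_neg, norm_zpow, ← Real.rpow_intCast,
    Int.cast_neg] using summand_bound_of_mem_verticalStrip (by positivity) p hB hz

/-- Variant on `{z : ℂ | 0 < z.im}`. -/
lemma wEis_tendstoLocallyUniformlyOn (hφ : ∀ v, ‖φ v‖ ≤ 1) (hk : 3 ≤ k) :
    TendstoLocallyUniformlyOn (fun (s : Finset (Fin 2 → ℤ)) ↦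
      ↑ₕ(fun (z : ℍ) ↦ ∑ x ∈ s, φ x * eisSummand k x z)) (↑ₕ(wEis φ k))
          Filter.atTop {z : ℂ | 0 < z.im} := by
  rw [← upperHalfPlaneSet, ← range_coe, ← Set.image_univ]
  apply TendstoLocallyUniformlyOn.comp (s := ⊤) _ _ _ (OpenPartialHomeomorph.continuousOn_symm _)
  · simp only [Set.top_eq_univ, tendstoLocallyUniformlyOn_univ]
    apply wEis_tendstoLocallyUniformly hφ hk
  · simp only [IsOpenEmbedding.toOpenPartialHomeomorph_target, Set.top_eq_univ,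
      Set.mapsTo_range_iff, Set.mem_univ, forall_const]

/-- Weighted Eisenstein series are holomorphic. -/
theorem wEis_mdifferentiable (hφ : ∀ v, ‖φ v‖ ≤ 1) (hk : 3 ≤ k) :
    MDiff (wEis φ k) := by
  intro τ
  suffices DifferentiableAt ℂ (↑ₕ(wEis φ k)) τ.1 by
    convert!
      MDifferentiableAt.comp τ (DifferentiableAt.mdifferentiableAt this) τ.mdifferentiable_coe
    exact funext fun z ↦ (comp_ofComplex (wEis φ k) z).symm
  refine DifferentiableOn.differentiableAt ?_ (isOpen_upperHalfPlaneSet.mem_nhds τ.2)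
  refine (wEis_tendstoLocallyUniformlyOn hφ hk).differentiableOn
    (Eventually.of_forall fun s ↦ ?_) isOpen_upperHalfPlaneSet
  have h1 : DifferentiableOn ℂ (fun z : ℂ => ∑ x ∈ s, φ x * (↑ₕ(eisSummand k x)) z)
      {z : ℂ | 0 < z.im} :=
    DifferentiableOn.fun_sum fun x _ ↦
      (eisSummand_extension_differentiableOn k x).const_mul (φ x)
  refine h1.congr (fun z hz => ?_)
  simp

/-- The sum of the norms of all summands. -/
def normSum (k : ℤ) (z : ℍ) : ℝ := ∑' v : Fin 2 → ℤ, ‖eisSummand k v z‖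

lemma norm_wEis_le (hφ : ∀ v, ‖φ v‖ ≤ 1) (hk : 3 ≤ k) (z : ℍ) :
    ‖wEis φ k z‖ ≤ normSum k z := by
  unfold wEis normSum
  refine (norm_tsum_le_tsum_norm (summable_norm_term hφ hk z)).trans ?_
  exact (summable_norm_term hφ hk z).tsum_le_tsum (fun v => norm_term_le hφ v z)
    (summable_norm_eisSummand hk z)

lemma denom_T_zpow (n : ℤ) (z : ℍ) : denom ((T ^ n : SL(2, ℤ))) z = 1 := by
  simp [UpperHalfPlane.denom, ModularGroup.coe_T_zpow, -map_zpow]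

lemma normSum_T_zpow (k : ℤ) (n : ℤ) (z : ℍ) : normSum k (T ^ n • z) = normSum k z := by
  unfold normSum
  rw [← (vecMulEquiv (T ^ n)).tsum_eq (fun v => ‖eisSummand k v z‖)]
  refine tsum_congr (fun v => ?_)
  rw [eisSummand_SL2_apply, denom_T_zpow, _root_.one_zpow, one_mul]
  rfl

lemma normSum_le_of_mem_verticalStrip (hk : 3 ≤ k) {A B : ℝ} (hB : 0 < B) {z : ℍ}
    (hz : z ∈ verticalStrip A B) :
    normSum k z ≤ ∑' (x : Fin 2 → ℤ), r ⟨⟨A, B⟩, hB⟩ ^ (-k) * ‖x‖ ^ (-k) := by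
  have hk' : (2 : ℝ) < k := by norm_cast
  unfold normSum
  apply (summable_norm_eisSummand hk _).tsum_le_tsum _
  · exact_mod_cast (summable_one_div_norm_rpow hk').mul_left <| r ⟨⟨A, B⟩, hB⟩ ^ (-k)
  · intro x
    simp_rw [eisSummand, norm_zpow]
    exact_mod_cast
      summand_bound_of_mem_verticalStrip (lt_trans two_pos hk').le x hB hz

/-- Weighted Eisenstein series are bounded at `i∞`. -/
theorem wEis_isBoundedAtImInfty (hφ : ∀ v, ‖φ v‖ ≤ 1) (hk : 3 ≤ k) :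
    IsBoundedAtImInfty (wEis φ k) := by
  rw [UpperHalfPlane.isBoundedAtImInfty_iff]
  refine ⟨∑' (x : Fin 2 → ℤ), r ⟨⟨((1 : ℕ) : ℝ), 2⟩, Nat.ofNat_pos⟩ ^ (-k) * ‖x‖ ^ (-k), 2, ?_⟩
  intro z hz
  obtain ⟨n, hn⟩ := ModularGroup_T_zpow_mem_verticalStrip z (N := 1) one_pos
  refine (norm_wEis_le hφ hk z).trans ?_
  rw [← normSum_T_zpow k (((1 : ℕ) : ℤ) * n) z]
  exact normSum_le_of_mem_verticalStrip hk _ (verticalStrip_anti_right _ hz hn)

/-- Bounded at every cusp. -/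
theorem wEis_slash_isBoundedAtImInfty (hφ : ∀ v, ‖φ v‖ ≤ 1) (hk : 3 ≤ k) (γ : SL(2, ℤ)) :
    IsBoundedAtImInfty (wEis φ k ∣[k] γ) := by
  rw [wEis_slash]
  exact wEis_isBoundedAtImInfty (fun v => hφ _) hk

/-- The constant term: the contribution of the vectors `(0, d)`. -/
def constTerm (φ : (Fin 2 → ℤ) → ℂ) (k : ℤ) : ℂ :=
  ∑' v : Fin 2 → ℤ, if v 0 = 0 then φ v * ((v 1 : ℤ) : ℂ) ^ (-k) else 0

/-- The bounding constant in `norm_wEis_sub_constTerm_le`. -/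
def tailConst (k : ℤ) : ℝ :=
  ∑' x : Fin 2 → ℤ, r ⟨⟨1, 1⟩, one_pos⟩ ^ (-((k : ℝ) - 1)) * ‖x‖ ^ (-((k : ℝ) - 1))

lemma norm_wEis_sub_constTerm_le (hφ : ∀ v, ‖φ v‖ ≤ 1) (hk : 4 ≤ k) {z : ℍ}
    (hz : z ∈ verticalStrip 1 1) :
    ‖wEis φ k z - constTerm φ k‖ ≤ tailConst k / z.im := by
  have hk3 : 3 ≤ k := by omega
  have hkr : (2 : ℝ) < (k : ℝ) - 1 := by
    have : (4 : ℝ) ≤ k := by exact_mod_cast hk
    linarith
  have him : 0 < z.im := z.im_pos
  -- the constant term as an indicator sum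
  have hLt : ∀ v : Fin 2 → ℤ, (if v 0 = 0 then φ v * ((v 1 : ℤ) : ℂ) ^ (-k) else 0)
      = Set.indicator {v : Fin 2 → ℤ | v 0 = 0} (fun v => φ v * eisSummand k v z) v := by
    intro v
    by_cases h : v 0 = 0
    · simp [Set.indicator, h, eisSummand]
    · simp [Set.indicator, h]
  have hsL : Summable fun v : Fin 2 → ℤ =>
      (if v 0 = 0 then φ v * ((v 1 : ℤ) : ℂ) ^ (-k) else 0) := by
    simp_rw [hLt]
    exact (summable_term hφ hk3 z).indicator _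
  have hdiff : wEis φ k z - constTerm φ k = ∑' v : Fin 2 → ℤ,
      (if v 0 = 0 then 0 else φ v * eisSummand k v z) := by
    unfold wEis constTerm
    rw [← (summable_term hφ hk3 z).tsum_sub hsL]
    refine tsum_congr (fun v => ?_)
    rw [hLt]
    by_cases h : v 0 = 0
    · simp [Set.indicator, h]
    · simp [Set.indicator, h]
  -- termwise bound
  have hB : Summable fun x : Fin 2 → ℤ =>
      r ⟨⟨1, 1⟩, one_pos⟩ ^ (-((k : ℝ) - 1)) * ‖x‖ ^ (-((k : ℝ) - 1)) :=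
    (summable_one_div_norm_rpow hkr).mul_left _
  have hterm : ∀ v : Fin 2 → ℤ, ‖(if v 0 = 0 then (0 : ℂ) else φ v * eisSummand k v z)‖
      ≤ r ⟨⟨1, 1⟩, one_pos⟩ ^ (-((k : ℝ) - 1)) * ‖v‖ ^ (-((k : ℝ) - 1)) / z.im := by
    intro v
    have hBnn : 0 ≤ r ⟨⟨1, 1⟩, one_pos⟩ ^ (-((k : ℝ) - 1)) * ‖v‖ ^ (-((k : ℝ) - 1)) / z.im := by
      have := (r_pos ⟨⟨1, 1⟩, one_pos⟩).le
      positivity
    by_cases h : v 0 = 0
    · simpa [h] using hBnn
    · rw [if_neg h]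
      refine (norm_term_le hφ v z).trans ?_
      set w : ℂ := (v 0 : ℂ) * (z : ℂ) + (v 1 : ℂ) with hw
      have hwim : z.im ≤ ‖w‖ := by
        have h1 : |w.im| ≤ ‖w‖ := abs_im_le_norm w
        have h2 : w.im = (v 0 : ℝ) * z.im := by
          simp [hw]
        have h3 : (1 : ℝ) ≤ |(v 0 : ℝ)| := by
          have : (1 : ℤ) ≤ |v 0| := Int.one_le_abs h
          exact_mod_cast this
        rw [h2, abs_mul, abs_of_pos him] at h1
        nlinarith
      have hwpos : 0 < ‖w‖ := lt_of_lt_of_le him hwim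
      have hsb := summand_bound_of_mem_verticalStrip (k := (k : ℝ) - 1) (by linarith) v
        one_pos hz
      have e1 : ‖eisSummand k v z‖ = ‖w‖ ^ (-((k : ℝ) - 1)) * ‖w‖⁻¹ := by
        simp only [eisSummand, norm_zpow]
        rw [← hw, ← Real.rpow_intCast, ← Real.rpow_neg_one ‖w‖, ← Real.rpow_add hwpos]
        congr 1
        push_cast
        ring
      rw [e1, div_eq_mul_inv]
      have e2 : ‖w‖⁻¹ ≤ z.im⁻¹ := inv_anti₀ him hwim
      exact mul_le_mul hsb e2 (inv_nonneg.mpr hwpos.le) (by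
        have := (r_pos ⟨⟨1, 1⟩, one_pos⟩).le
        positivity)
  have hsD : Summable fun v : Fin 2 → ℤ =>
      ‖(if v 0 = 0 then (0 : ℂ) else φ v * eisSummand k v z)‖ :=
    (hB.div_const z.im).of_nonneg_of_le (fun _ => norm_nonneg _) hterm
  rw [hdiff]
  refine (norm_tsum_le_tsum_norm hsD).trans ?_
  refine (hsD.tsum_le_tsum hterm (hB.div_const z.im)).trans ?_
  rw [tsum_div_const]
  rfl

/-- **The limit at `i∞`** of a weighted Eisenstein series which is invariant under translations. -/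
theorem wEis_tendsto (hφ : ∀ v, ‖φ v‖ ≤ 1) (hk : 4 ≤ k)
    (hinv : ∀ (n : ℤ) (z : ℍ), wEis φ k (T ^ n • z) = wEis φ k z) :
    Tendsto (wEis φ k) atImInfty (𝓝 (constTerm φ k)) := by
  rw [Metric.tendsto_nhds]
  intro ε hε
  rw [Filter.Eventually, UpperHalfPlane.atImInfty_mem]
  have hC : 0 ≤ tailConst k := by
    unfold tailConst
    refine tsum_nonneg (fun x => ?_)
    have := (r_pos ⟨⟨1, 1⟩, one_pos⟩).le
    positivity
  refine ⟨max 1 (tailConst k / ε + 1), fun z hz => ?_⟩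
  have hz1 : 1 ≤ z.im := (le_max_left _ _).trans hz
  have hz2 : tailConst k / ε + 1 ≤ z.im := (le_max_right _ _).trans hz
  obtain ⟨n, hn⟩ := ModularGroup_T_zpow_mem_verticalStrip z (N := 1) one_pos
  have hn' : T ^ (((1 : ℕ) : ℤ) * n) • z ∈ verticalStrip 1 1 := by
    have := verticalStrip_anti_right _ hz1 hn
    simpa using this
  have him : (T ^ (((1 : ℕ) : ℤ) * n) • z).im = z.im := ModularGroup.im_T_zpow_smul z _
  have h1 := norm_wEis_sub_constTerm_le hφ hk hn'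
  rw [hinv, him] at h1
  rw [Set.mem_ofPred_eq, dist_eq_norm]
  refine lt_of_le_of_lt h1 ?_
  rw [div_lt_iff₀ z.im_pos]
  have : tailConst k / ε < z.im := by linarith
  rw [div_lt_iff₀ hε] at this
  linarith

/-! ### The character part -/

lemma T_mem_Gamma0 (N : ℕ) : T ∈ Gamma0 N := by
  rw [Gamma0_mem]
  simp [ModularGroup.coe_T]

lemma neg_one_mem_Gamma0 (N : ℕ) : (-1 : SL(2, ℤ)) ∈ Gamma0 N := by
  rw [Gamma0_mem]
  simp

/-- Two elements of `SL(2, ℤ)` with the same bottom row differ by a power of `T` on the left. -/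
lemma exists_T_zpow_mul_of_row_eq (δ δ' : SL(2, ℤ)) (h : δ 1 = δ' 1) :
    ∃ m : ℤ, δ' = T ^ m * δ := by
  have hc : δ' 1 0 = δ 1 0 := by rw [h]
  have hd : δ' 1 1 = δ 1 1 := by rw [h]
  have hdet : δ 0 0 * δ 1 1 - δ 0 1 * δ 1 0 = 1 := by
    have := δ.det_coe
    rw [Matrix.det_fin_two] at this
    exact this
  have hdet' : δ' 0 0 * δ' 1 1 - δ' 0 1 * δ' 1 0 = 1 := by
    have := δ'.det_coe
    rw [Matrix.det_fin_two] at this
    exact this
  rw [hc, hd] at hdet'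
  refine ⟨δ 0 0 * δ' 0 1 - δ' 0 0 * δ 0 1, ?_⟩
  ext i j
  fin_cases i <;> fin_cases j
  · simp only [Fin.zero_eta, Matrix.SpecialLinearGroup.coe_mul, ModularGroup.coe_T_zpow,
      Matrix.mul_apply, Fin.sum_univ_two, Matrix.of_apply, Matrix.cons_val_zero,
      Matrix.cons_val_one]
    linear_combination (δ 0 0) * hdet' - (δ' 0 0) * hdet
  · simp only [Fin.zero_eta, Fin.mk_one, Matrix.SpecialLinearGroup.coe_mul,
      ModularGroup.coe_T_zpow, Matrix.mul_apply, Fin.sum_univ_two, Matrix.of_apply,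
      Matrix.cons_val_zero, Matrix.cons_val_one]
    linear_combination (δ 0 1) * hdet' - (δ' 0 1) * hdet
  · simp only [Fin.zero_eta, Fin.mk_one, Matrix.SpecialLinearGroup.coe_mul,
      ModularGroup.coe_T_zpow, Matrix.mul_apply, Fin.sum_univ_two, Matrix.of_apply,
      Matrix.cons_val_zero, Matrix.cons_val_one]
    linear_combination hc
  · simp only [Fin.mk_one, Matrix.SpecialLinearGroup.coe_mul,
      ModularGroup.coe_T_zpow, Matrix.mul_apply, Fin.sum_univ_two, Matrix.of_apply,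
      Matrix.cons_val_zero, Matrix.cons_val_one]
    linear_combination hd

section Character

variable {N : ℕ} (χ : ↥(Gamma0 N) →* ℂˣ)

/-- A character which is trivial on `T` takes the same value on elements with the same bottom
row. -/
lemma chi_eq_of_row_eq (hT : χ ⟨T, T_mem_Gamma0 N⟩ = 1) (δ δ' : ↥(Gamma0 N))
    (h : (δ : SL(2, ℤ)) 1 = (δ' : SL(2, ℤ)) 1) : χ δ = χ δ' := by
  obtain ⟨m, hm⟩ := exists_T_zpow_mul_of_row_eq (δ : SL(2, ℤ)) (δ' : SL(2, ℤ)) h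
  have h1 : δ' = (⟨T, T_mem_Gamma0 N⟩ : ↥(Gamma0 N)) ^ m * δ := by
    apply Subtype.ext
    rw [Subgroup.coe_mul, Subgroup.coe_zpow]
    exact hm
  rw [h1, map_mul, map_zpow, hT, _root_.one_zpow, one_mul]

open scoped Classical in
/-- The weight attached to a character: `χ(δ)⁻¹` on the bottom row of `δ ∈ Γ₀(N)`, zero on
vectors which are not bottom rows. -/
def chiTilde (v : Fin 2 → ℤ) : ℂ :=
  if h : ∃ δ : ↥(Gamma0 N), (δ : SL(2, ℤ)) 1 = v then ((χ h.choose)⁻¹ : ℂˣ) else 0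

lemma chiTilde_of_row (hT : χ ⟨T, T_mem_Gamma0 N⟩ = 1) (δ : ↥(Gamma0 N)) :
    chiTilde χ ((δ : SL(2, ℤ)) 1) = ((χ δ)⁻¹ : ℂˣ) := by
  have h : ∃ δ' : ↥(Gamma0 N), (δ' : SL(2, ℤ)) 1 = (δ : SL(2, ℤ)) 1 := ⟨δ, rfl⟩
  unfold chiTilde
  rw [dif_pos h, chi_eq_of_row_eq χ hT _ _ h.choose_spec]

lemma chiTilde_of_not_row {v : Fin 2 → ℤ}
    (h : ¬ ∃ δ : ↥(Gamma0 N), (δ : SL(2, ℤ)) 1 = v) : chiTilde χ v = 0 := by
  unfold chiTilde
  rw [dif_neg h]

lemma norm_chiTilde_le (hχ : ∀ δ, ‖(χ δ : ℂ)‖ = 1) (v : Fin 2 → ℤ) : ‖chiTilde χ v‖ ≤ 1 := by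
  unfold chiTilde
  split_ifs with h
  · rw [Units.val_inv_eq_inv_val, norm_inv, hχ, inv_one]
  · simp

/-- Transformation of the weight under right multiplication by `γ ∈ Γ₀(N)`. -/
lemma chiTilde_vecMul (hT : χ ⟨T, T_mem_Gamma0 N⟩ = 1) (γ : ↥(Gamma0 N)) (v : Fin 2 → ℤ) :
    chiTilde χ (v ᵥ* ((γ : SL(2, ℤ)) : Matrix (Fin 2) (Fin 2) ℤ))
      = chiTilde χ v * ((χ γ)⁻¹ : ℂˣ) := by
  by_cases h : ∃ δ : ↥(Gamma0 N), (δ : SL(2, ℤ)) 1 = v
  · obtain ⟨δ, rfl⟩ := h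
    have h1 : ((δ : SL(2, ℤ)) 1) ᵥ* ((γ : SL(2, ℤ)) : Matrix (Fin 2) (Fin 2) ℤ)
        = ((δ * γ : ↥(Gamma0 N)) : SL(2, ℤ)) 1 := by
      rw [Subgroup.coe_mul, Matrix.SpecialLinearGroup.coe_mul, Matrix.mul_apply_eq_vecMul]
    rw [h1, chiTilde_of_row χ hT, chiTilde_of_row χ hT, map_mul, _root_.mul_inv_rev,
      Units.val_mul, mul_comm]
  · have h' : ¬ ∃ δ : ↥(Gamma0 N),
        (δ : SL(2, ℤ)) 1 = v ᵥ* ((γ : SL(2, ℤ)) : Matrix (Fin 2) (Fin 2) ℤ) := by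
      rintro ⟨δ, hδ⟩
      apply h
      refine ⟨δ * γ⁻¹, ?_⟩
      rw [Subgroup.coe_mul, Matrix.SpecialLinearGroup.coe_mul, Matrix.mul_apply_eq_vecMul, hδ,
        Subgroup.coe_inv, vecMul_vecMul, ← Matrix.SpecialLinearGroup.coe_mul, mul_inv_cancel,
        Matrix.SpecialLinearGroup.coe_one, vecMul_one]
    rw [chiTilde_of_not_row χ h, chiTilde_of_not_row χ h', zero_mul]

/-- The Eisenstein series of weight `k` attached to the character `χ`. -/
def eisChar (k : ℤ) (z : ℍ) : ℂ := 2⁻¹ * wEis (chiTilde χ) k z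

/-- Transformation law, in slash form. -/
theorem eisChar_slash (hT : χ ⟨T, T_mem_Gamma0 N⟩ = 1) (k : ℤ) (γ : ↥(Gamma0 N)) :
    eisChar χ k ∣[k] (γ : SL(2, ℤ)) = ((χ γ : ℂˣ) : ℂ) • eisChar χ k := by
  have h1 : eisChar χ k = (2⁻¹ : ℂ) • wEis (chiTilde χ) k := by
    ext z
    simp [eisChar]
  rw [h1, SL_smul_slash, wEis_slash]
  ext z
  simp only [Pi.smul_apply, smul_eq_mul, wEis]
  rw [← tsum_mul_left, ← tsum_mul_left, ← tsum_mul_left]
  refine tsum_congr (fun v => ?_)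
  have h2 := chiTilde_vecMul χ hT γ⁻¹ v
  rw [Subgroup.coe_inv] at h2
  rw [h2, map_inv, inv_inv]
  ring

/-- Transformation law, in value form. -/
theorem eisChar_smul (hT : χ ⟨T, T_mem_Gamma0 N⟩ = 1) (k : ℤ) (γ : ↥(Gamma0 N)) (z : ℍ) :
    eisChar χ k ((γ : SL(2, ℤ)) • z)
      = ((χ γ : ℂˣ) : ℂ) * denom (γ : SL(2, ℤ)) z ^ k * eisChar χ k z := by
  have h1 := congrFun (eisChar_slash χ hT k γ) z
  rw [SL_slash_apply] at h1
  simp only [Pi.smul_apply, smul_eq_mul] at h1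
  have h3 : denom (γ : SL(2, ℤ)) z ≠ 0 := denom_ne_zero _ z
  have h4 : eisChar χ k ((γ : SL(2, ℤ)) • z)
      = eisChar χ k ((γ : SL(2, ℤ)) • z) * denom (γ : SL(2, ℤ)) z ^ (-k)
        * denom (γ : SL(2, ℤ)) z ^ k := by
    rw [mul_assoc, ← zpow_add₀ h3]
    simp
  rw [h4, h1]
  ring

lemma wEis_chiTilde_T_zpow (hT : χ ⟨T, T_mem_Gamma0 N⟩ = 1) (k : ℤ) (n : ℤ) (z : ℍ) :
    wEis (chiTilde χ) k (T ^ n • z) = wEis (chiTilde χ) k z := by
  have h1 := eisChar_smul χ hT k ((⟨T, T_mem_Gamma0 N⟩ : ↥(Gamma0 N)) ^ n) z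
  rw [map_zpow, hT, _root_.one_zpow] at h1
  have h2 : (((⟨T, T_mem_Gamma0 N⟩ : ↥(Gamma0 N)) ^ n : ↥(Gamma0 N)) : SL(2, ℤ)) = T ^ n := by
    rw [Subgroup.coe_zpow]
  rw [h2, denom_T_zpow, _root_.one_zpow] at h1
  simp only [eisChar, Units.val_one, one_mul] at h1
  exact mul_left_cancel₀ (by norm_num : (2⁻¹ : ℂ) ≠ 0) h1

/-- The constant term of the Eisenstein series with character is `2` (before normalisation). -/
lemma constTerm_chiTilde (hT : χ ⟨T, T_mem_Gamma0 N⟩ = 1)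
    (hneg : χ ⟨-1, neg_one_mem_Gamma0 N⟩ = 1) {k : ℤ} (hk : Even k) :
    constTerm (chiTilde χ) k = 2 := by
  unfold constTerm
  have hne : (![0, 1] : Fin 2 → ℤ) ≠ ![0, -1] := by
    intro h
    have := congrFun h 1
    simp at this
  rw [tsum_eq_sum (s := {![0, 1], ![0, -1]})]
  · rw [Finset.sum_pair hne]
    have e1 : chiTilde χ ![0, 1] = 1 := by
      have h1 : (((1 : ↥(Gamma0 N)) : SL(2, ℤ)) 1) = ![0, 1] := by
        ext i
        fin_cases i <;> simp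
      rw [← h1, chiTilde_of_row χ hT, map_one]
      simp
    have e2 : chiTilde χ ![0, -1] = 1 := by
      have h1 : (((⟨-1, neg_one_mem_Gamma0 N⟩ : ↥(Gamma0 N)) : SL(2, ℤ)) 1) = ![0, -1] := by
        ext i
        fin_cases i <;> simp
      rw [← h1, chiTilde_of_row χ hT, hneg]
      simp
    simp only [Matrix.cons_val_zero, if_true, Matrix.cons_val_one, e1, e2, one_mul]
    have e3 : (((-1 : ℤ) : ℂ)) ^ (-k) = 1 := by
      push_cast
      exact Even.neg_one_zpow hk.neg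
    rw [e3]
    simp
    norm_num
  · intro v hv
    by_cases h0 : v 0 = 0
    · rw [if_pos h0]
      have hrow : ¬ ∃ δ : ↥(Gamma0 N), (δ : SL(2, ℤ)) 1 = v := by
        rintro ⟨δ, hδ⟩
        have hcop := ModularGroup.bottom_row_coprime (δ : SL(2, ℤ))
        have h10 : (δ : SL(2, ℤ)) 1 0 = 0 := by rw [hδ]; exact h0
        have h11 : (δ : SL(2, ℤ)) 1 1 = v 1 := by rw [hδ]
        rw [h10, h11, isCoprime_zero_left] at hcop
        rcases Int.isUnit_iff.mp hcop with h1 | h1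
        · apply hv
          have : v = ![0, 1] := by
            ext i
            fin_cases i
            · simpa using h0
            · simpa using h1
          simp [this]
        · apply hv
          have : v = ![0, -1] := by
            ext i
            fin_cases i
            · simpa using h0
            · simpa using h1
          simp [this]
      rw [chiTilde_of_not_row χ hrow, zero_mul]
    · rw [if_neg h0]

/-- **Eisenstein series with character.** For a character `χ` of `Γ₀(N)` with values of absolute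
value one which is trivial on `T` and on `-1`, and an even weight `k ≥ 4`, the series
`eisChar χ k` is holomorphic, transforms under `Γ₀(N)` with the character `χ`, tends to `1` at
`i∞` and is bounded at every cusp. -/
theorem eisChar_spec (hT : χ ⟨T, T_mem_Gamma0 N⟩ = 1)
    (hneg : χ ⟨-1, neg_one_mem_Gamma0 N⟩ = 1) (hχ : ∀ δ, ‖(χ δ : ℂ)‖ = 1)
    {k : ℤ} (hk : 4 ≤ k) (hk2 : Even k) :
    MDiff (eisChar χ k) ∧
    (∀ (γ : ↥(Gamma0 N)) (z : ℍ), eisChar χ k ((γ : SL(2, ℤ)) • z)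
      = ((χ γ : ℂˣ) : ℂ) * denom (γ : SL(2, ℤ)) z ^ k * eisChar χ k z) ∧
    Tendsto (eisChar χ k) atImInfty (𝓝 1) ∧
    ∀ g : SL(2, ℤ), IsBoundedAtImInfty (eisChar χ k ∣[k] g) := by
  have hk3 : 3 ≤ k := by omega
  have hφ := norm_chiTilde_le χ hχ
  have h1 : eisChar χ k = (2⁻¹ : ℂ) • wEis (chiTilde χ) k := by
    ext z
    simp [eisChar]
  refine ⟨?_, eisChar_smul χ hT k, ?_, ?_⟩
  · rw [h1]
    exact (wEis_mdifferentiable hφ hk3).const_smul _
  · have h2 := (wEis_tendsto hφ hk (wEis_chiTilde_T_zpow χ hT k)).const_mul (2⁻¹ : ℂ)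
    rw [constTerm_chiTilde χ hT hneg hk2] at h2
    have h3 : (2⁻¹ : ℂ) * 2 = 1 := by norm_num
    rw [h3] at h2
    exact h2
  · intro g
    rw [h1, SL_smul_slash]
    exact (wEis_slash_isBoundedAtImInfty hφ hk3 g).const_smul_left _

/-- A character of finite order has values of absolute value one. -/
lemma norm_eq_one_of_pow_eq_one {n : ℕ} (hn : n ≠ 0) (hχn : ∀ δ, χ δ ^ n = 1) (δ : ↥(Gamma0 N)) :
    ‖(χ δ : ℂ)‖ = 1 := by
  have h1 : ((χ δ : ℂˣ) : ℂ) ^ n = 1 := by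
    rw [← Units.val_pow_eq_pow_val, hχn δ, Units.val_one]
  have h2 : ‖(χ δ : ℂ)‖ ^ n = 1 := by
    rw [← norm_pow, h1, norm_one]
  exact (pow_eq_one_iff_of_nonneg (norm_nonneg _) hn).mp h2

/-- The Eisenstein series with character is not identically zero. -/
theorem eisChar_ne_zero (hT : χ ⟨T, T_mem_Gamma0 N⟩ = 1)
    (hneg : χ ⟨-1, neg_one_mem_Gamma0 N⟩ = 1) (hχ : ∀ δ, ‖(χ δ : ℂ)‖ = 1)
    {k : ℤ} (hk : 4 ≤ k) (hk2 : Even k) : eisChar χ k ≠ 0 := by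
  intro h0
  have h1 := (eisChar_spec χ hT hneg hχ hk hk2).2.2.1
  rw [h0] at h1
  have h2 : Tendsto (0 : ℍ → ℂ) atImInfty (𝓝 0) := tendsto_const_nhds
  exact one_ne_zero (tendsto_nhds_unique h1 h2)

/-- Pair form of the transformation law: for any `b` of weight `k` and level one,
`eisChar χ k / b` is multiplied by `χ γ` under `γ ∈ Γ₀(N)`. -/
theorem eisChar_pair (hT : χ ⟨T, T_mem_Gamma0 N⟩ = 1) (k : ℤ) {b : ℍ → ℂ}
    (hb : ∀ (g : SL(2, ℤ)) (z : ℍ), b (g • z) = denom g z ^ k * b z)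
    (γ : ↥(Gamma0 N)) (z : ℍ) :
    eisChar χ k ((γ : SL(2, ℤ)) • z) * b z
      = ((χ γ : ℂˣ) : ℂ) * (eisChar χ k z * b ((γ : SL(2, ℤ)) • z)) := by
  rw [eisChar_smul χ hT k γ z, hb]
  ring

/-- **Existence of a weight-four form with a given finite-order character.** -/
theorem exists_char_form {n : ℕ} (hn : n ≠ 0) (hχn : ∀ δ, χ δ ^ n = 1)
    (hT : χ ⟨T, T_mem_Gamma0 N⟩ = 1) (hneg : χ ⟨-1, neg_one_mem_Gamma0 N⟩ = 1) :
    ∃ G : ℍ → ℂ, MDiff G ∧ G ≠ 0 ∧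
      (∀ (γ : ↥(Gamma0 N)) (z : ℍ), G ((γ : SL(2, ℤ)) • z)
        = ((χ γ : ℂˣ) : ℂ) * denom (γ : SL(2, ℤ)) z ^ (4 : ℤ) * G z) ∧
      Tendsto G atImInfty (𝓝 1) ∧
      ∀ g : SL(2, ℤ), IsBoundedAtImInfty (G ∣[(4 : ℤ)] g) := by
  have hχ := norm_eq_one_of_pow_eq_one χ hn hχn
  have h4 : Even (4 : ℤ) := ⟨2, by norm_num⟩
  obtain ⟨h1, h2, h3, h5⟩ := eisChar_spec χ hT hneg hχ (le_refl (4 : ℤ)) h4
  exact ⟨eisChar χ 4, h1, eisChar_ne_zero χ hT hneg hχ (le_refl (4 : ℤ)) h4, h2, h3, h5⟩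

end Character

end Fermat.Agent.Lib.Analysis.EisensteinChar
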